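import Fermat.Agent.ToricCubic.Boxes
import Mathlib.Data.ZMod.QuotientRing
import Mathlib.Algebra.Field.ZMod

/-!
# Congruence conditions on signed boxes

The tuples in a signed box in given classes modulo `N` have density `#classes / N ^ m`, and
classes for pairwise coprime moduli multiply by the Chinese remainder theorem.
-/

set_option autoImplicit false
set_option linter.style.openClassical false

noncomputable section

open Filter
open scoped Classical Topology

namespace FA.DiagonalDensity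

variable {m : ℕ}

/-- The tuples with entries in `(0, B]`. -/
def box (m B : ℕ) : Finset (Fin m → ℕ) := Fintype.piFinset fun _ => Finset.Ioc 0 B

/-- The tuple with the given signs. -/
def signed (s : Fin m → ℤˣ) (w : Fin m → ℕ) : Fin m → ℤ := fun i => (s i : ℤ) * w i

/-- Reduction modulo `N`. -/
def reduce (N : ℕ) (a : Fin m → ℤ) : Fin m → ZMod N := fun i => (a i : ZMod N)

/-- The density of a set of classes. -/
def classDensity {N : ℕ} (S : Set (Fin m → ZMod N)) : ℝ := (Nat.card S : ℝ) / (N : ℝ) ^ m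

theorem card_box (m B : ℕ) : (box m B).card = B ^ m := by
  simp [box]

theorem signed_natAbs (s : Fin m → ℤˣ) (w : Fin m → ℕ) (i : Fin m) :
    (signed s w i).natAbs = w i := by
  rcases Int.units_eq_one_or (s i) with h | h <;> simp [signed, h]

theorem tendsto_card_class {N : ℕ} [NeZero N] (c : ZMod N) :
    Tendsto (fun B : ℕ => (((Finset.Ioc 0 B).filter fun n : ℕ => (n : ZMod N) = c).card : ℝ) / B)
      atTop (𝓝 (1 / (N : ℝ))) := by
  have hN : 0 < N := NeZero.pos N
  have hb : ∀ B : ℕ, B / N ≤ ((Finset.Ioc 0 B).filter fun n : ℕ => (n : ZMod N) = c).card ∧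
      ((Finset.Ioc 0 B).filter fun n : ℕ => (n : ZMod N) = c).card ≤ B / N + 1 := fun B => by
    refine ⟨?_, FA.ToricCubic.card_le_of_modEq (a := 1) (fun x hx => ?_) fun x hx y hy =>
      (ZMod.natCast_eq_natCast_iff _ _ _).mp
        ((Finset.mem_filter.mp hx).2.trans (Finset.mem_filter.mp hy).2.symm)⟩
    · obtain ⟨r, hr1, hr2, hr⟩ : ∃ r : ℕ, 1 ≤ r ∧ r ≤ N ∧ (r : ZMod N) = c := by
        rcases eq_or_ne c 0 with rfl | hc
        · exact ⟨N, hN, le_rfl, ZMod.natCast_self N⟩
        · exact ⟨c.val, Nat.one_le_iff_ne_zero.mpr fun h => hc ((ZMod.val_eq_zero c).mp h),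
            c.val_lt.le, ZMod.natCast_zmod_val c⟩
      refine (Finset.card_range _).symm.trans_le (Finset.card_le_card_of_injOn (fun i => i * N + r)
        (fun i hi => ?_) fun x _ y _ h => Nat.eq_of_mul_eq_mul_right hN (by simpa using h))
      have h1 : (i + 1) * N ≤ B :=
        (Nat.mul_le_mul_right N (Finset.mem_range.mp hi)).trans (Nat.div_mul_le_self B N)
      rw [Nat.succ_mul] at h1
      exact Finset.mem_filter.mpr
        ⟨Finset.mem_Ioc.mpr ⟨lt_of_lt_of_le hr1 (Nat.le_add_left r _),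
          show i * N + r ≤ B by omega⟩, by simp [hr]⟩
    · have := Finset.mem_Ioc.mp (Finset.mem_filter.mp hx).1
      exact Finset.mem_Ico.mpr ⟨this.1, by omega⟩
  refine tendsto_sub_nhds_zero_iff.mp (squeeze_zero_norm' (a := fun B : ℕ => 1 / (B : ℝ))
    ((eventually_ne_atTop 0).mono fun B hB => ?_) (tendsto_const_div_atTop_nhds_zero_nat 1))
  obtain ⟨h1, h2⟩ := hb B
  set C := ((Finset.Ioc 0 B).filter fun n : ℕ => (n : ZMod N) = c).card
  have hB0 : (0 : ℝ) < B := Nat.cast_pos.mpr (Nat.pos_of_ne_zero hB)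
  have hN0 : (0 : ℝ) < N := Nat.cast_pos.mpr hN
  have h3 : (B : ℝ) / N - 1 ≤ ((B / N : ℕ) : ℝ) := by
    have := Nat.lt_div_mul_add hN (a := B)
    rw [div_sub_one hN0.ne', div_le_iff₀ hN0]
    have h' : (B : ℝ) ≤ ((B / N * N + N : ℕ) : ℝ) := Nat.cast_le.mpr this.le
    push_cast at h'
    linarith
  have h4 : ((B / N : ℕ) : ℝ) ≤ (B : ℝ) / N := Nat.cast_div_le
  have h1' : ((B / N : ℕ) : ℝ) ≤ C := Nat.cast_le.mpr h1
  have h2' : (C : ℝ) ≤ ((B / N : ℕ) : ℝ) + 1 := by exact_mod_cast h2
  rw [Real.norm_eq_abs, show (C : ℝ) / B - 1 / N = ((C : ℝ) - B / N) / B by field_simp,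
    abs_div, abs_of_pos hB0]
  exact div_le_div_of_nonneg_right (abs_le.mpr ⟨by linarith, by linarith⟩) hB0.le

/-- **Congruence conditions on a signed box.** -/
theorem tendsto_classes {N : ℕ} [NeZero N] (S : Set (Fin m → ZMod N)) (s : Fin m → ℤˣ) :
    Tendsto (fun B : ℕ =>
      (((box m B).filter fun w => reduce N (signed s w) ∈ S).card : ℝ) / (B : ℝ) ^ m) atTop
      (𝓝 (classDensity S)) := by
  set e : (Fin m → ZMod N) → Fin m → ZMod N := fun c i => ((s i : ℤ) : ZMod N) * c i
  have he : ∀ (w : Fin m → ℕ) (c : Fin m → ZMod N),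
      reduce N (signed s w) = c ↔ ∀ i, (w i : ZMod N) = e c i := fun w c => by
    rw [funext_iff]
    refine forall_congr' fun i => ?_
    rcases Int.units_eq_one_or (s i) with h | h <;> simp [reduce, signed, e, h, neg_eq_iff_eq_neg]
  have hcard : ∀ B : ℕ,
      (((box m B).filter fun w => reduce N (signed s w) ∈ S).card : ℝ) / (B : ℝ) ^ m =
        ∑ c ∈ S.toFinset, ∏ i,
          ((((Finset.Ioc 0 B).filter fun n : ℕ => (n : ZMod N) = e c i).card : ℝ) / B) :=
      fun B => by
    rw [Finset.card_eq_sum_card_fiberwise (f := fun w => reduce N (signed s w)) (t := S.toFinset)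
      fun w hw => Set.mem_toFinset.mpr (Finset.mem_filter.mp hw).2, Nat.cast_sum, Finset.sum_div]
    refine Finset.sum_congr rfl fun c hc => ?_
    rw [Finset.prod_div_distrib, Finset.prod_const, Finset.card_univ, Fintype.card_fin,
      ← Nat.cast_prod, ← Fintype.card_piFinset]
    congr 3
    ext w
    simp only [Finset.mem_filter, box, Fintype.mem_piFinset]
    refine ⟨fun h i => ⟨h.1.1 i, (he w c).mp h.2 i⟩, fun h => ?_⟩
    have h2 := (he w c).mpr fun i => (h i).2
    exact ⟨⟨fun i => (h i).1, h2 ▸ Set.mem_toFinset.mp hc⟩, h2⟩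
  simp only [hcard]
  have hval : classDensity S = ∑ c ∈ S.toFinset, ∏ _i : Fin m, 1 / (N : ℝ) := by
    simp [classDensity, div_eq_mul_inv]
  rw [hval]
  exact tendsto_finsetSum _ fun c _ => tendsto_finsetProd _ fun i _ => tendsto_card_class _

/-- **The Chinese remainder theorem for classes.** -/
theorem exists_classes (k : ℕ) (T : Finset ℕ) (hT : ∀ p ∈ T, p.Prime)
    (R : ∀ p, Set (Fin m → ZMod (p ^ k))) :
    ∃ (N : ℕ) (_ : NeZero N) (S : Set (Fin m → ZMod N)), N = ∏ p ∈ T, p ^ k ∧
      classDensity S = ∏ p ∈ T, classDensity (R p) ∧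
      ∀ a : Fin m → ℤ, reduce N a ∈ S ↔ ∀ p ∈ T, reduce (p ^ k) a ∈ R p := by
  induction T using Finset.induction_on with
  | empty =>
    refine ⟨1, ⟨one_ne_zero⟩, Set.univ, by simp, ?_, fun a => by simp⟩
    simp [classDensity]
  | insert p T hp ih =>
    obtain ⟨N, hN, S, hNeq, hden, hmem⟩ := ih fun q hq => hT q (Finset.mem_insert_of_mem hq)
    have hpp := hT p (Finset.mem_insert_self p T)
    have hcop : (p ^ k).Coprime N := by
      rw [hNeq]
      refine Nat.Coprime.prod_right fun q hq => Nat.Coprime.pow _ _ ?_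
      exact (Nat.coprime_primes hpp (hT q (Finset.mem_insert_of_mem hq))).mpr
        fun h => hp (h ▸ hq)
    set e : (Fin m → ZMod (p ^ k * N)) ≃ (Fin m → ZMod (p ^ k)) × (Fin m → ZMod N) :=
      (Equiv.piCongrRight fun _ => (ZMod.chineseRemainder hcop).toEquiv).trans
        (Equiv.arrowProdEquivProdArrow (Fin m) (fun _ => ZMod (p ^ k)) fun _ => ZMod N)
    refine ⟨p ^ k * N, ⟨mul_ne_zero (pow_ne_zero _ hpp.ne_zero) hN.out⟩, e ⁻¹' (R p ×ˢ S),
      by rw [Finset.prod_insert hp, hNeq], ?_, fun a => ?_⟩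
    · rw [Finset.prod_insert hp, ← hden]
      unfold classDensity
      rw [Nat.card_preimage_of_injective e.injective (by simp [e.surjective.range_eq]),
        Nat.card_congr (Equiv.Set.prod (R p) S), Nat.card_prod, Nat.cast_mul, Nat.cast_mul, mul_pow,
        div_mul_div_comm]
    · rw [Set.mem_preimage, Set.mem_prod, Finset.forall_mem_insert, ← hmem]
      have : e (reduce (p ^ k * N) a) = (reduce (p ^ k) a, reduce N a) := by
        ext i <;> simp [e, reduce]
      rw [this]

end FA.DiagonalDensity
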