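import Fermat.Agent.DiagonalDensity.Density
import Fermat.Agent.DiagonalLocal.Count
import Mathlib.NumberTheory.SmoothNumbers

/-!
# The sieve

For `m ≥ 4` a form which is insoluble at some `p > max (P, d ^ 6)` has two coefficients divisible by
`p`, so the signed tuples soluble everywhere have the density `∏ σ_p`, and the real condition is
one on the signs.
-/

set_option autoImplicit false
set_option linter.style.openClassical false
set_option linter.style.haveILetI false

noncomputable section

open Filter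
open scoped Classical Topology

namespace FA.DiagonalDensity

open FA.DiagonalLocal

variable {m d : ℕ}

/-- The product of the local densities up to `P`. -/
def partialProduct (m d P : ℕ) : ℝ := ∏ p ∈ (P + 1).primesBelow, localDensity m d p

/-- The product of all local densities. -/
def globalDensity (m d : ℕ) : ℝ := ⨅ P, partialProduct m d P

theorem tendsto_partialProduct (m d : ℕ) :
    Tendsto (partialProduct m d) atTop (𝓝 (globalDensity m d)) := by
  refine tendsto_atTop_ciInf (fun P Q hPQ => ?_)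
    ⟨0, by rintro x ⟨P, rfl⟩; exact Finset.prod_nonneg fun p _ => localDensity_nonneg m d p⟩
  have hsub : (P + 1).primesBelow ⊆ (Q + 1).primesBelow := fun p hp => by
    rw [Nat.mem_primesBelow] at hp ⊢
    exact ⟨by omega, hp.2⟩
  unfold partialProduct
  rw [← Finset.prod_sdiff hsub]
  exact mul_le_of_le_one_left (Finset.prod_nonneg fun p _ => localDensity_nonneg m d p)
    (Finset.prod_le_one (fun p _ => localDensity_nonneg m d p) fun p hp =>
      localDensity_le_one (Nat.prime_of_mem_primesBelow (Finset.mem_sdiff.mp hp).1))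

/-- The tuples with a prime above `P` in two entries. -/
def tailBad (m P B : ℕ) : Finset (Fin m → ℕ) :=
  (box m B).filter fun w => ∃ p, P < p ∧ ∃ i l, i ≠ l ∧ p ∣ w i ∧ p ∣ w l

theorem card_tailBad_le {P B : ℕ} (hP : 0 < P) (hB : 0 < B) :
    ((tailBad m P B).card : ℝ) ≤ (m : ℝ) ^ 2 * (B : ℝ) ^ m / P := by
  have hB0 : (0 : ℝ) < B := Nat.cast_pos.mpr hB
  set bad : Fin m × Fin m → ℕ → Finset (Fin m → ℕ) := fun q p =>
    (box m B).filter fun w => p ∣ w q.1 ∧ p ∣ w q.2
  have hsub : tailBad m P B ⊆ (Finset.univ : Finset (Fin m)).offDiag.biUnion fun q =>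
      (Finset.Ioc P B).biUnion (bad q) := fun w hw => by
    obtain ⟨hw, p, hp, i, l, hil, hi, hl⟩ := Finset.mem_filter.mp hw
    have hwi := Finset.mem_Ioc.mp (Fintype.mem_piFinset.mp hw i)
    exact Finset.mem_biUnion.mpr ⟨(i, l), Finset.mem_offDiag.mpr
      ⟨Finset.mem_univ _, Finset.mem_univ _, hil⟩, Finset.mem_biUnion.mpr ⟨p, Finset.mem_Ioc.mpr
      ⟨hp, (Nat.le_of_dvd hwi.1 hi).trans hwi.2⟩, Finset.mem_filter.mpr ⟨hw, hi, hl⟩⟩⟩
  have hone : ∀ q ∈ (Finset.univ : Finset (Fin m)).offDiag, ∀ p,
      ((bad q p).card : ℝ) ≤ (B : ℝ) ^ m * ((p : ℝ) ^ 2)⁻¹ := fun q hq p => by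
    refine le_of_mul_le_mul_right ?_ (mul_pos hB0 hB0)
    have h := FA.ToricCubic.card_filter_pair (fun _ : Fin m => Finset.Ioc 0 B)
      (Finset.mem_offDiag.mp hq).2.2 fun a b => p ∣ a ∧ p ∣ b
    simp only [Finset.prod_const, Finset.card_univ, Fintype.card_fin, Nat.card_Ioc,
      Nat.sub_zero] at h
    simp only [bad, box]
    refine (le_of_eq (Eq.trans (by congr!) h)).trans ?_
    rw [Finset.filter_product (p := fun a => p ∣ a) (q := fun a => p ∣ a), Finset.card_product,
      Nat.Ioc_filter_dvd_card_eq_div, Nat.cast_mul]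
    calc ((B / p : ℕ) : ℝ) * ((B / p : ℕ) : ℝ) * (B : ℝ) ^ m ≤
          (B : ℝ) / p * ((B : ℝ) / p) * (B : ℝ) ^ m := mul_le_mul_of_nonneg_right
          (mul_le_mul Nat.cast_div_le Nat.cast_div_le (Nat.cast_nonneg _) (by positivity))
          (by positivity)
      _ = _ := by
          rw [div_mul_div_comm, div_eq_mul_inv, sq]
          ring
  refine (Nat.cast_le.mpr ((Finset.card_le_card hsub).trans
    (Finset.card_biUnion_le.trans (Finset.sum_le_sum fun q _ => Finset.card_biUnion_le)))).trans ?_
  push_cast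
  refine (Finset.sum_le_card_nsmul _ _ ((B : ℝ) ^ m / P) fun q hq => ?_).trans ?_
  · refine (Finset.sum_le_sum fun p _ => hone q hq p).trans ?_
    rw [← Finset.mul_sum, div_eq_mul_inv]
    refine mul_le_mul_of_nonneg_left ?_ (by positivity)
    rcases le_or_gt P B with h | h
    · exact (sum_Ioc_inv_sq_le_sub (α := ℝ) hP.ne' h).trans (sub_le_self _ (by positivity))
    · rw [Finset.Ioc_eq_empty (by omega), Finset.sum_empty]
      positivity
  · rw [nsmul_eq_mul, mul_div_assoc']
    gcongr
    rw [Finset.offDiag_card, Finset.card_univ, Fintype.card_fin, sq, ← Nat.cast_mul]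
    exact Nat.cast_le.mpr (Nat.sub_le _ _)

/-- **The signed tuples soluble at every prime.** -/
theorem tendsto_padicSoluble_all (hm : 4 ≤ m) (hd : 0 < d) (s : Fin m → ℤˣ) :
    Tendsto (fun B : ℕ => (((box m B).filter fun w => ∀ p,
      PadicSoluble p (signed s w) d).card : ℝ) / (B : ℝ) ^ m) atTop
      (𝓝 (globalDensity m d)) := by
  rw [Metric.tendsto_atTop]
  intro ε hε
  obtain ⟨P, hP1, hP2, hP3⟩ : ∃ P, d ^ 6 < P ∧
      dist (partialProduct m d P) (globalDensity m d) < ε / 3 ∧ (m : ℝ) ^ 2 / P < ε / 3 :=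
    ((eventually_gt_atTop _).and (((tendsto_partialProduct m d).eventually
      (Metric.ball_mem_nhds _ (by positivity))).and
      ((tendsto_const_div_atTop_nhds_zero_nat ((m : ℝ) ^ 2)).eventually
        (Iio_mem_nhds (by positivity))))).exists
  obtain ⟨B₀, hB₀⟩ := Metric.tendsto_atTop.mp (tendsto_padicSoluble (m := m) hd
    (T := (P + 1).primesBelow) (fun p hp => Nat.prime_of_mem_primesBelow hp) s) (ε / 3)
    (by positivity)
  refine ⟨max B₀ 1, fun B hB => ?_⟩
  have h1 : ((box m B).filter fun w => ∀ p, PadicSoluble p (signed s w) d).card ≤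
      (solubleAt d (P + 1).primesBelow s B).card :=
    Finset.card_le_card fun w hw => mem_solubleAt.mpr
      ⟨(Finset.mem_filter.mp hw).1, fun p _ => (Finset.mem_filter.mp hw).2 p⟩
  have h2 : solubleAt d (P + 1).primesBelow s B ⊆
      ((box m B).filter fun w => ∀ p, PadicSoluble p (signed s w) d) ∪ tailBad m P B :=
    fun w hw => by
    obtain ⟨hw, h⟩ := mem_solubleAt.mp hw
    by_cases hbad : w ∈ tailBad m P B
    · exact Finset.mem_union_right _ hbad
    refine Finset.mem_union_left _ (Finset.mem_filter.mpr ⟨hw, fun p hp => ?_⟩)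
    rcases le_or_gt p P with hle | hlt
    · exact h p (Nat.mem_primesBelow.mpr ⟨Nat.lt_succ_of_le hle, hp.out⟩) hp
    · refine padicSoluble_of_coprime_pairs hm hd (hP1.trans hlt) (fun i l hil hdiv => ?_) hp
      refine hbad (Finset.mem_filter.mpr ⟨hw, p, hlt, i, l, hil, ?_, ?_⟩)
      · simpa [signed_natAbs] using Int.natCast_dvd.mp hdiv.1
      · simpa [signed_natAbs] using Int.natCast_dvd.mp hdiv.2
  have hB1 : 0 < B := lt_of_lt_of_le one_pos (le_of_max_le_right hB)
  have hBm : (0 : ℝ) < (B : ℝ) ^ m := pow_pos (Nat.cast_pos.mpr hB1) m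
  have h3 : (m : ℝ) ^ 2 * (B : ℝ) ^ m / P / (B : ℝ) ^ m = (m : ℝ) ^ 2 / P := by field_simp
  have h4 := div_le_div_of_nonneg_right (c := (B : ℝ) ^ m) (Nat.cast_le (α := ℝ).mpr h1) hBm.le
  have h5 := div_le_div_of_nonneg_right (c := (B : ℝ) ^ m) (Nat.cast_le (α := ℝ).mpr
    ((Finset.card_le_card h2).trans (Finset.card_union_le _ _))) hBm.le
  rw [Nat.cast_add, add_div] at h5
  have h6 := div_le_div_of_nonneg_right (c := (B : ℝ) ^ m)
    (card_tailBad_le (m := m) (B := B) (P := P) (Nat.zero_lt_of_lt hP1) hB1) hBm.le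
  rw [h3] at h6
  have h7 := abs_lt.mp ((Real.dist_eq _ _).symm.trans_lt (hB₀ B (le_of_max_le_left hB)))
  have h8 := abs_lt.mp ((Real.dist_eq _ _).symm.trans_lt hP2)
  unfold partialProduct at h8
  rw [Real.dist_eq, abs_lt]
  constructor <;> linarith

/-- The sign vectors allowing real zeros. -/
def RealAdmissible (d : ℕ) (s : Fin m → ℤˣ) : Prop := Odd d ∨ ∃ i j, s i = 1 ∧ s j = -1

/-- The real density. -/
def realDensity (m d : ℕ) : ℝ := if Odd d then 1 else 1 - 2 / 2 ^ m

theorem hasZero_real_iff (hm : 2 ≤ m) (hd : 0 < d) (s : Fin m → ℤˣ) {w : Fin m → ℕ}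
    (hw : ∀ i, 0 < w i) : HasZero ℝ (signed s w) d ↔ RealAdmissible d s := by
  have hw' : ∀ i, (0 : ℤ) < w i := fun i => Nat.cast_pos.mpr (hw i)
  constructor
  · intro ⟨x, hx, hsum⟩
    by_contra hadm
    simp only [RealAdmissible, not_or, not_exists, not_and] at hadm
    have heven : Even d := Nat.not_odd_iff_even.mp hadm.1
    obtain ⟨c, hc⟩ : ∃ c : ℤˣ, ∀ i, s i = c := by
      rcases Int.units_eq_one_or (s ⟨0, by omega⟩) with h | h
      · exact ⟨1, fun i => (Int.units_eq_one_or (s i)).resolve_right (hadm.2 _ i h)⟩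
      · exact ⟨-1, fun i => (Int.units_eq_one_or (s i)).resolve_left fun h' => hadm.2 i _ h' h⟩
    simp only [signed, hc, Int.cast_mul, Int.cast_natCast, mul_assoc, ← Finset.mul_sum] at hsum
    have h0 := (mul_eq_zero.mp hsum).resolve_left (Int.cast_ne_zero.mpr c.ne_zero)
    refine hx (funext fun i => ?_)
    have h1 := (Finset.sum_eq_zero_iff_of_nonneg fun l _ =>
      mul_nonneg (Nat.cast_nonneg _) (heven.pow_nonneg (x l))).mp h0 i (Finset.mem_univ i)
    exact (pow_eq_zero_iff hd.ne').mp
      ((mul_eq_zero.mp h1).resolve_left (Nat.cast_ne_zero.mpr (hw i).ne'))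
  · intro h
    by_cases hmix : ∃ i j, s i = 1 ∧ s j = -1
    · obtain ⟨i, j, hi, hj⟩ := hmix
      have hij : i ≠ j := fun e => by rw [e, hj] at hi; exact absurd hi (by decide)
      exact hasZero_real hd hij (by simpa [signed, hi] using hw' i)
        (by simpa [signed, hj] using hw' j)
    · have hodd : Odd d := h.resolve_right hmix
      set i : Fin m := ⟨0, by omega⟩
      set j : Fin m := ⟨1, by omega⟩
      have hij : i ≠ j := by simp [i, j]
      have hs : s i = s j := by
        rcases Int.units_eq_one_or (s i) with h1 | h1 <;>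
          rcases Int.units_eq_one_or (s j) with h2 | h2 <;> simp only [h1, h2] at hmix ⊢
        · exact absurd ⟨i, j, h1, h2⟩ hmix
        · exact absurd ⟨j, i, h2, h1⟩ hmix
      have hq : (0 : ℝ) < (w j : ℝ) / w i :=
        div_pos (Nat.cast_pos.mpr (hw j)) (Nat.cast_pos.mpr (hw i))
      refine hasZero_of_pair hd hij (z := -(((w j : ℝ) / w i) ^ ((d : ℝ)⁻¹)))
        (neg_ne_zero.mpr (Real.rpow_pos_of_pos hq _).ne') ?_
      rw [hodd.neg_pow, Real.rpow_inv_natCast_pow hq.le hd.ne']
      simp only [signed, hs, Int.cast_mul, Int.cast_natCast]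
      rw [mul_neg, mul_assoc, mul_div_cancel₀ _ (Nat.cast_ne_zero.mpr (hw i).ne'), neg_add_cancel]

theorem card_realAdmissible (hm : 0 < m) :
    ((Finset.univ.filter fun s : Fin m → ℤˣ => RealAdmissible d s).card : ℝ) =
      realDensity m d * 2 ^ m := by
  have htot : Fintype.card (Fin m → ℤˣ) = 2 ^ m := by simp
  unfold realDensity
  split_ifs with hd
  · rw [Finset.filter_true_of_mem fun s _ => show RealAdmissible d s from Or.inl hd,
      Finset.card_univ, htot, one_mul,
      Nat.cast_pow, Nat.cast_ofNat]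
  · have hnot : (Finset.univ.filter fun s : Fin m → ℤˣ => ¬RealAdmissible d s) =
        {fun _ => 1, fun _ => -1} := by
      ext s
      simp only [Finset.mem_filter, Finset.mem_univ, true_and, RealAdmissible, hd, false_or,
        not_exists, not_and, Finset.mem_insert, Finset.mem_singleton]
      refine ⟨fun h => ?_, ?_⟩
      · rcases Int.units_eq_one_or (s ⟨0, hm⟩) with h0 | h0
        · exact Or.inl (funext fun i => (Int.units_eq_one_or (s i)).resolve_right (h _ i h0))
        · exact Or.inr (funext fun i =>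
            (Int.units_eq_one_or (s i)).resolve_left fun h' => h i _ h' h0)
      · rintro (rfl | rfl) <;> simp
    have h := Finset.card_filter_add_card_filter_not
      (s := (Finset.univ : Finset (Fin m → ℤˣ))) (fun s => RealAdmissible d s)
    rw [hnot, Finset.card_pair (fun e => absurd (congrFun e ⟨0, hm⟩) (by decide)),
      Finset.card_univ, htot] at h
    have h' := congrArg (Nat.cast : ℕ → ℝ) h
    push_cast at h'
    rw [sub_mul, one_mul, div_mul_cancel₀ _ (by positivity)]
    linarith

/-- The orthants. -/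
theorem card_solubleForms_eq (m d B : ℕ) : (solubleForms m d B).card =
    ∑ s : Fin m → ℤˣ, ((box m B).filter fun w => LocallySoluble (signed s w) d).card := by
  set sgn : (Fin m → ℤ) → Fin m → ℤˣ := fun a i => if 0 < a i then 1 else -1
  rw [Finset.card_eq_sum_card_fiberwise (f := sgn) (t := Finset.univ) fun a _ => Finset.mem_univ _]
  refine Finset.sum_congr rfl fun s _ => ?_
  have hinv : ∀ a : Fin m → ℤ, (∀ i, a i ≠ 0) → sgn a = s →
      signed s (fun i => (a i).natAbs) = a := fun a ha hs => funext fun i => by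
    rw [← hs]
    by_cases h : 0 < a i
    · simp [signed, sgn, h, abs_of_pos h]
    · have := ha i
      have hneg : a i < 0 := by omega
      simp [signed, sgn, h, abs_of_neg hneg]
  refine Finset.card_nbij' (fun a i => (a i).natAbs) (signed s) (fun a ha => ?_) (fun w hw => ?_)
    (fun a ha => ?_) fun w _ => funext fun i => signed_natAbs s w i
  · obtain ⟨ha, hs⟩ := Finset.mem_filter.mp ha
    obtain ⟨h0, hsol⟩ := mem_solubleForms.mp ha
    refine Finset.mem_filter.mpr ⟨Fintype.mem_piFinset.mpr fun i => Finset.mem_Ioc.mpr ?_, ?_⟩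
    · have := (h0 i).2
      rw [Int.abs_eq_natAbs] at this
      show 0 < (a i).natAbs ∧ (a i).natAbs ≤ B
      exact ⟨Int.natAbs_pos.mpr (h0 i).1, by exact_mod_cast this⟩
    · rwa [hinv a (fun i => (h0 i).1) hs]
  · obtain ⟨hw, hsol⟩ := Finset.mem_filter.mp hw
    have hpos : ∀ i, 0 < w i ∧ w i ≤ B := fun i =>
      Finset.mem_Ioc.mp (Fintype.mem_piFinset.mp hw i)
    refine Finset.mem_filter.mpr ⟨mem_solubleForms.mpr ⟨fun i => ?_, hsol⟩, funext fun i => ?_⟩
    · refine ⟨signed_ne_zero hw s i, ?_⟩
      rw [Int.abs_eq_natAbs, signed_natAbs]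
      exact_mod_cast (hpos i).2
    · have := (hpos i).1
      rcases Int.units_eq_one_or (s i) with h | h <;> simp [sgn, signed, h, this]
  · obtain ⟨ha, hs⟩ := Finset.mem_filter.mp ha
    exact hinv a (fun i => ((mem_solubleForms.mp ha).1 i).1) hs

/-- **The density of the forms soluble everywhere locally.** -/
theorem tendsto_solubleForms (hm : 4 ≤ m) (hd : 0 < d) :
    Tendsto (fun B : ℕ => ((solubleForms m d B).card : ℝ) / (2 * (B : ℝ)) ^ m) atTop
      (𝓝 (realDensity m d * globalDensity m d)) := by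
  have h : Tendsto (fun B : ℕ => ∑ s : Fin m → ℤˣ, (((box m B).filter fun w =>
      LocallySoluble (signed s w) d).card : ℝ) / (B : ℝ) ^ m) atTop
      (𝓝 (∑ s : Fin m → ℤˣ, if RealAdmissible d s then globalDensity m d else 0)) := by
    refine tendsto_finsetSum _ fun s _ => ?_
    split_ifs with hs
    · refine (tendsto_padicSoluble_all hm hd s).congr fun B => ?_
      congr 3
      refine Finset.filter_congr fun w hw => ?_
      rw [locallySoluble_iff, hasZero_real_iff (by omega) hd s fun i =>
        (Finset.mem_Ioc.mp (Fintype.mem_piFinset.mp hw i)).1]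
      exact (and_iff_right hs).symm
    · refine tendsto_const_nhds.congr fun B => ?_
      have he : ((box m B).filter fun w => LocallySoluble (signed s w) d) = ∅ :=
        Finset.filter_eq_empty_iff.mpr fun w hw hsol => hs ((hasZero_real_iff (by omega) hd s
          fun i => (Finset.mem_Ioc.mp (Fintype.mem_piFinset.mp hw i)).1).mp hsol.1)
      simp [he]
  rw [← Finset.sum_filter, Finset.sum_const, nsmul_eq_mul, card_realAdmissible (by omega)] at h
  have h' := h.div_const ((2 : ℝ) ^ m)
  rw [mul_right_comm, mul_div_cancel_right₀ _ (by positivity)] at h'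
  refine h'.congr fun B => ?_
  rw [card_solubleForms_eq, Nat.cast_sum, ← Finset.sum_div, mul_pow, div_div,
    mul_comm ((B : ℝ) ^ m)]

theorem realDensity_pos (hm : 2 ≤ m) (d : ℕ) : 0 < realDensity m d := by
  unfold realDensity
  split_ifs
  · exact one_pos
  · rw [sub_pos, div_lt_one (by positivity)]
    calc (2 : ℝ) < 2 ^ 2 := by norm_num
      _ ≤ 2 ^ m := pow_le_pow_right₀ (by norm_num) hm

/-- **The product of the local densities is positive.** -/
theorem globalDensity_pos (hm : 4 ≤ m) (hd : 0 < d) : 0 < globalDensity m d := by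
  obtain ⟨c, hc, B₀, h⟩ := exists_proportion hm hd
  have hle : c / 2 ^ m ≤ realDensity m d * globalDensity m d :=
    ge_of_tendsto (tendsto_solubleForms hm hd) (eventually_atTop.mpr ⟨max B₀ 1, fun B hB => by
      have hB0 : (0 : ℝ) < B :=
        Nat.cast_pos.mpr (lt_of_lt_of_le one_pos (le_of_max_le_right hB))
      rw [mul_pow, div_le_div_iff₀ (by positivity) (by positivity)]
      calc c * (2 ^ m * (B : ℝ) ^ m) = c * (B : ℝ) ^ m * 2 ^ m := by ring
        _ ≤ _ := mul_le_mul_of_nonneg_right (h B (le_of_max_le_left hB)) (by positivity)⟩)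
  exact pos_of_mul_pos_right (lt_of_lt_of_le (by positivity) hle)
    (realDensity_pos (by omega) d).le

theorem localDensity_pos (hm : 4 ≤ m) (hd : 0 < d) {p : ℕ} (hp : p.Prime) :
    0 < localDensity m d p := by
  have hmem : p ∈ (p + 1).primesBelow := Nat.mem_primesBelow.mpr ⟨Nat.lt_succ_self p, hp⟩
  have hle : globalDensity m d ≤ localDensity m d p := by
    refine (ciInf_le
      ⟨0, by rintro x ⟨P, rfl⟩; exact Finset.prod_nonneg fun q _ => localDensity_nonneg m d q⟩
      p).trans ?_
    unfold partialProduct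
    rw [← Finset.mul_prod_erase _ _ hmem]
    exact mul_le_of_le_one_right (localDensity_nonneg m d p)
      (Finset.prod_le_one (fun q _ => localDensity_nonneg m d q) fun q hq =>
        localDensity_le_one (Nat.prime_of_mem_primesBelow (Finset.mem_of_mem_erase hq)))
  exact lt_of_lt_of_le (globalDensity_pos hm hd) hle

end FA.DiagonalDensity
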