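import Fermat.Agent.DiagonalLocal.Local

/-!
# Local solubility is locally constant

A coefficient congruent to `a` modulo `p ^ (2 (j + d))`, `p ^ j ∤ a`, is `a` times the `d`-th power
of a `p`-adic number, so solubility over `ℚ_p` depends only on such a class.
-/

set_option autoImplicit false
set_option linter.style.openClassical false

noncomputable section

open scoped Classical

namespace FA.DiagonalDensity

open FA.DiagonalLocal

variable {m d : ℕ}

/-- Solubility over `ℚ_p`, vacuous unless `p` is prime. -/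
def PadicSoluble (p : ℕ) (a : Fin m → ℤ) (d : ℕ) : Prop :=
  ∀ _ : Fact p.Prime, HasZero ℚ_[p] a d

theorem locallySoluble_iff {a : Fin m → ℤ} :
    LocallySoluble a d ↔ HasZero ℝ a d ∧ ∀ p : ℕ, PadicSoluble p a d := Iff.rfl

variable {p : ℕ} [hp : Fact p.Prime]

/-- The ratio is a `d`-th power. -/
theorem exists_ratio_pow (hd : 0 < d) {a b : ℤ} {j k : ℕ} (hk : 2 * (j + d) ≤ k)
    (ha : ¬(p : ℤ) ^ j ∣ a) (hb : b ≠ 0) (hab : (p : ℤ) ^ k ∣ a - b) :
    ∃ z : ℚ_[p], z ≠ 0 ∧ (a : ℚ_[p]) * z ^ d = b := by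
  have hpd : ¬(p : ℤ) ^ d ∣ d := fun h => by
    rw [← Nat.cast_pow] at h
    exact (Nat.le_of_dvd hd (Int.natCast_dvd_natCast.mp h)).not_gt
      (Nat.lt_pow_self hp.out.one_lt)
  have lb : ∀ {x : ℤ} {n : ℕ}, ¬(p : ℤ) ^ n ∣ x → (p : ℝ) ^ (-n : ℤ) < ‖(x : ℤ_[p])‖ :=
    fun hx => not_le.mp fun h => hx (PadicInt.norm_int_le_pow_iff_dvd.mp h)
  have h1 := mul_lt_mul'' (lb hpd) (lb ha) (by positivity) (by positivity)
  have h2 : ‖((a * 1 ^ d + -b : ℤ) : ℤ_[p])‖ <
      ‖((d * a * 1 ^ (d - 1) : ℤ) : ℤ_[p])‖ ^ 2 := by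
    rw [one_pow, one_pow, mul_one, mul_one, ← sub_eq_add_neg, Int.cast_mul (d : ℤ) a, norm_mul]
    refine lt_of_le_of_lt (PadicInt.norm_int_le_pow_iff_dvd.mpr
      ((pow_dvd_pow _ hk).trans hab)) (lt_of_eq_of_lt ?_
        (pow_lt_pow_left₀ h1 (by positivity) two_ne_zero))
    rw [← zpow_add₀ (Nat.cast_ne_zero.mpr hp.out.ne_zero), ← zpow_natCast, ← zpow_mul]
    congr 1
    push_cast
    ring
  obtain ⟨z, hz, -⟩ := exists_root_pow (d := d) a (-b) 1 h2
  have h3 : (a : ℚ_[p]) * (z : ℚ_[p]) ^ d = b := by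
    have := congrArg ((↑) : ℤ_[p] → ℚ_[p]) hz
    push_cast at this
    linear_combination this
  refine ⟨z, fun h0 => hb ?_, h3⟩
  rw [h0, zero_pow hd.ne', mul_zero] at h3
  exact_mod_cast h3.symm

omit hp

/-- **Local solubility is locally constant.** -/
theorem padicSoluble_of_congr (hd : 0 < d) {a b : Fin m → ℤ} {j k : ℕ} (hk : 2 * (j + d) ≤ k)
    (ha : ∀ i, ¬(p : ℤ) ^ j ∣ a i) (hb : ∀ i, b i ≠ 0) (hab : ∀ i, (p : ℤ) ^ k ∣ a i - b i)
    (h : PadicSoluble p b d) : PadicSoluble p a d := by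
  intro hp
  obtain ⟨x, hx, hsum⟩ := h hp
  choose z hz using fun i => exists_ratio_pow hd hk (ha i) (hb i) (hab i)
  refine ⟨fun i => z i * x i, fun h0 => hx (funext fun i => ?_), ?_⟩
  · exact (mul_eq_zero.mp (congrFun h0 i)).resolve_left (hz i).1
  · rw [← hsum]
    refine Finset.sum_congr rfl fun i _ => ?_
    rw [mul_pow, ← mul_assoc, (hz i).2]

/-- Three unit coefficients suffice at `p > d ^ 6`. -/
theorem padicSoluble_of_coprime_pairs (hm : 4 ≤ m) (hd : 0 < d) (hpd : d ^ 6 < p) {a : Fin m → ℤ}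
    (h : ∀ i l, i ≠ l → ¬((p : ℤ) ∣ a i ∧ (p : ℤ) ∣ a l)) : PadicSoluble p a d := by
  intro hp
  have h1 : (Finset.univ.filter fun l => (p : ℤ) ∣ a l).card ≤ 1 :=
    Finset.card_le_one.mpr fun r hr s hs => by_contra fun hne =>
      h r s hne ⟨(Finset.mem_filter.mp hr).2, (Finset.mem_filter.mp hs).2⟩
  have h2 := Finset.card_filter_add_card_filter_not
    (s := (Finset.univ : Finset (Fin m))) (fun l => (p : ℤ) ∣ a l)
  rw [Finset.card_univ, Fintype.card_fin] at h2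
  have hcard : 2 < (Finset.univ.filter fun l => ¬(p : ℤ) ∣ a l).card := by omega
  obtain ⟨r, hr, s, hs, u, hu, hrs, hru, hsu⟩ := Finset.two_lt_card.mp hcard
  simp only [Finset.mem_filter, Finset.mem_univ, true_and] at hr hs hu
  refine hasZero_padic_of_three hd hpd (e := ![r, s, u]) ?_ ?_
  · intro x y hxy
    fin_cases x <;> fin_cases y <;> simp_all [eq_comm]
  · intro x
    fin_cases x <;> assumption

end FA.DiagonalDensity
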