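import Fermat.Agent.DiagonalDensity.Classes
import Fermat.Agent.DiagonalDensity.Invariance

/-!
# The local densities

The classes modulo `p ^ k` all of whose lifts are soluble and those with some soluble lift differ
by `m p ^ (- j)` in density, `k ≥ 2 (j + d)`, and squeeze the tuples soluble at finitely many
primes.
-/

set_option autoImplicit false
set_option linter.style.openClassical false
set_option linter.style.haveILetI false

noncomputable section

open Filter
open scoped Classical Topology

namespace FA.DiagonalDensity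

variable {m d : ℕ}

/-- The classes with a soluble lift. -/
def upperClasses (m d p k : ℕ) : Set (Fin m → ZMod (p ^ k)) :=
  {c | ∃ a : Fin m → ℤ, (∀ i, a i ≠ 0) ∧ reduce (p ^ k) a = c ∧ PadicSoluble p a d}

/-- The classes all of whose lifts are soluble. -/
def lowerClasses (m d p k : ℕ) : Set (Fin m → ZMod (p ^ k)) :=
  {c | ∀ a : Fin m → ℤ, (∀ i, a i ≠ 0) → reduce (p ^ k) a = c → PadicSoluble p a d}

/-- The local density. -/
def localDensity (m d p : ℕ) : ℝ := ⨅ k, classDensity (upperClasses m d p k)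

theorem classDensity_nonneg {N : ℕ} (S : Set (Fin m → ZMod N)) : 0 ≤ classDensity S := by
  unfold classDensity
  positivity

theorem classDensity_le_one {N : ℕ} [NeZero N] (S : Set (Fin m → ZMod N)) :
    classDensity S ≤ 1 := by
  rw [classDensity, div_le_one (by have := NeZero.pos N; positivity)]
  calc (Nat.card S : ℝ) ≤ Nat.card (Fin m → ZMod N) :=
        Nat.cast_le.mpr (Nat.card_le_card_of_injective _ Subtype.val_injective)
    _ = (N : ℝ) ^ m := by simp [Nat.card_eq_fintype_card]

theorem signed_ne_zero {B : ℕ} {w : Fin m → ℕ} (hw : w ∈ box m B) (s : Fin m → ℤˣ) (i : Fin m) :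
    signed s w i ≠ 0 := fun h => by
  have h1 := signed_natAbs s w i
  have h2 := Finset.mem_Ioc.mp (Fintype.mem_piFinset.mp hw i)
  rw [h, Int.natAbs_zero] at h1
  omega

theorem mem_upperClasses {B : ℕ} {w : Fin m → ℕ} (hw : w ∈ box m B) (s : Fin m → ℤˣ) {p k : ℕ}
    (h : PadicSoluble p (signed s w) d) :
    reduce (p ^ k) (signed s w) ∈ upperClasses m d p k :=
  ⟨_, signed_ne_zero hw s, rfl, h⟩

theorem padicSoluble_of_mem {B : ℕ} {w : Fin m → ℕ} (hw : w ∈ box m B) (s : Fin m → ℤˣ) {p k : ℕ}
    (h : reduce (p ^ k) (signed s w) ∈ lowerClasses m d p k) : PadicSoluble p (signed s w) d :=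
  h _ (signed_ne_zero hw s) rfl

variable {p : ℕ}

theorem lowerDensity_le_upperDensity (hp : p.Prime) (k l : ℕ) :
    classDensity (lowerClasses m d p k) ≤ classDensity (upperClasses m d p l) := by
  haveI : NeZero p := ⟨hp.ne_zero⟩
  refine le_of_tendsto_of_tendsto' (tendsto_classes _ fun _ => 1) (tendsto_classes _ fun _ => 1)
    fun B => div_le_div_of_nonneg_right (Nat.cast_le.mpr (Finset.card_le_card fun w hw => ?_))
      (by positivity)
  obtain ⟨hw, h⟩ := Finset.mem_filter.mp hw
  exact Finset.mem_filter.mpr ⟨hw, mem_upperClasses hw _ (padicSoluble_of_mem hw _ h)⟩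

/-- A divisibility condition on one coordinate. -/
theorem card_box_dvd (i : Fin m) (q B : ℕ) :
    (((box m B).filter fun w => q ∣ w i).card : ℝ) ≤ (B : ℝ) ^ m / q := by
  have h : (box m B).filter (fun w => q ∣ w i) =
      Fintype.piFinset fun l => if l = i then (Finset.Ioc 0 B).filter (q ∣ ·)
        else Finset.Ioc 0 B := by
    ext w
    simp only [Finset.mem_filter, box, Fintype.mem_piFinset]
    refine ⟨fun h l => ?_, fun h => ⟨fun l => ?_, ?_⟩⟩
    · split_ifs with hl
      · exact Finset.mem_filter.mpr ⟨h.1 l, hl ▸ h.2⟩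
      · exact h.1 l
    · have := h l
      split_ifs at this with hl
      exacts [(Finset.mem_filter.mp this).1, this]
    · have := h i
      rw [if_pos rfl] at this
      exact (Finset.mem_filter.mp this).2
  rw [h, Fintype.card_piFinset, ← Finset.mul_prod_erase _ _ (Finset.mem_univ i), if_pos rfl,
    Nat.Ioc_filter_dvd_card_eq_div, Finset.prod_congr rfl fun l hl => by
      rw [if_neg (Finset.ne_of_mem_erase hl), Nat.card_Ioc, Nat.sub_zero],
    Finset.prod_const, Finset.card_erase_of_mem (Finset.mem_univ i), Finset.card_univ,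
    Fintype.card_fin, Nat.cast_mul, Nat.cast_pow]
  calc ((B / q : ℕ) : ℝ) * (B : ℝ) ^ (m - 1) ≤ (B : ℝ) / q * (B : ℝ) ^ (m - 1) :=
        mul_le_mul_of_nonneg_right Nat.cast_div_le (by positivity)
    _ = _ := by
        rw [div_mul_eq_mul_div, ← pow_succ', Nat.sub_add_cancel i.pos]

theorem upperDensity_le_lowerDensity (hp : p.Prime) (hd : 0 < d) {j k : ℕ}
    (hk : 2 * (j + d) ≤ k) : classDensity (upperClasses m d p k) ≤
      classDensity (lowerClasses m d p k) + m / (p : ℝ) ^ j := by
  haveI : NeZero p := ⟨hp.ne_zero⟩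
  haveI : Fact p.Prime := ⟨hp⟩
  refine le_of_tendsto_of_tendsto' (tendsto_classes _ fun _ => 1)
    ((tendsto_classes _ fun _ => 1).add_const _) fun B => ?_
  rcases eq_or_ne B 0 with rfl | hB
  · rcases eq_or_ne m 0 with rfl | hm
    · have : lowerClasses 0 d p k = upperClasses 0 d p k := by
        ext c
        exact ⟨fun h => ⟨finZeroElim, fun i => i.elim0, Subsingleton.elim _ _,
          h _ (fun i => i.elim0) (Subsingleton.elim _ _)⟩, fun ⟨a, _, _, ha⟩ b _ _ =>
            Subsingleton.elim a b ▸ ha⟩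
      simp [this]
    · simp [zero_pow hm]
      positivity
  have hsub : (box m B).filter (fun w => reduce (p ^ k) (signed (fun _ => 1) w) ∈
      upperClasses m d p k) ⊆ (box m B).filter (fun w => reduce (p ^ k) (signed (fun _ => 1) w) ∈
      lowerClasses m d p k) ∪ Finset.univ.biUnion fun i => (box m B).filter fun w => p ^ j ∣ w i :=
    fun w hw => by
    obtain ⟨hw, a, ha0, ha, hsol⟩ := Finset.mem_filter.mp hw
    by_cases hdiv : ∃ i, p ^ j ∣ w i
    · obtain ⟨i, hi⟩ := hdiv
      exact Finset.mem_union_right _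
        (Finset.mem_biUnion.mpr ⟨i, Finset.mem_univ i, Finset.mem_filter.mpr ⟨hw, hi⟩⟩)
    · refine Finset.mem_union_left _ (Finset.mem_filter.mpr ⟨hw, fun b hb0 hb => ?_⟩)
      have hdvd : ∀ i, (p : ℤ) ^ k ∣ b i - a i := fun i => by
        rw [← Nat.cast_pow, ← ZMod.intCast_zmod_eq_zero_iff_dvd, Int.cast_sub, sub_eq_zero]
        exact congrFun (hb.trans ha.symm) i
      refine padicSoluble_of_congr hd hk (fun i hi => hdiv ⟨i, ?_⟩) ha0 hdvd hsol
      have h1 : ((signed (fun _ => 1) w i : ℤ) : ZMod (p ^ k)) = b i := (congrFun hb i).symm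
      rw [ZMod.intCast_eq_intCast_iff_dvd_sub] at h1
      have h2 : (p : ℤ) ^ j ∣ signed (fun _ => 1) w i := by
        push_cast at h1
        exact (dvd_sub_right hi).mp ((pow_dvd_pow _ (by omega)).trans h1)
      simp [signed] at h2
      exact_mod_cast h2
  rw [div_add' _ _ _ (by positivity)]
  refine div_le_div_of_nonneg_right ?_ (by positivity)
  refine (Nat.cast_le.mpr ((Finset.card_le_card hsub).trans
    ((Finset.card_union_le _ _).trans (Nat.add_le_add_left Finset.card_biUnion_le _)))).trans ?_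
  rw [Nat.cast_add, Nat.cast_sum]
  refine add_le_add le_rfl ((Finset.sum_le_card_nsmul _ _ _ fun i _ =>
    card_box_dvd i (p ^ j) B).trans_eq ?_)
  rw [Finset.card_univ, Fintype.card_fin, nsmul_eq_mul, Nat.cast_pow]
  field_simp

theorem localDensity_mem (hp : p.Prime) (k : ℕ) :
    classDensity (lowerClasses m d p k) ≤ localDensity m d p ∧
      localDensity m d p ≤ classDensity (upperClasses m d p k) :=
  ⟨le_ciInf fun l => lowerDensity_le_upperDensity hp k l,
    ciInf_le ⟨0, by rintro x ⟨l, rfl⟩; exact classDensity_nonneg _⟩ k⟩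

theorem localDensity_le_one (hp : p.Prime) : localDensity m d p ≤ 1 :=
  haveI : NeZero p := ⟨hp.ne_zero⟩
  (localDensity_mem hp 0).2.trans (classDensity_le_one _)

theorem localDensity_nonneg (m d p : ℕ) : 0 ≤ localDensity m d p :=
  le_ciInf fun _ => classDensity_nonneg _

/-- **The local density is the limit of the densities of the classes.** -/
theorem tendsto_classDensity (hp : p.Prime) (hd : 0 < d) :
    Tendsto (fun k => classDensity (upperClasses m d p k)) atTop (𝓝 (localDensity m d p)) ∧
      Tendsto (fun k => classDensity (lowerClasses m d p k)) atTop (𝓝 (localDensity m d p)) := by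
  have hlim : Tendsto (fun k : ℕ => (m : ℝ) / (p : ℝ) ^ (k / 2 - d)) atTop (𝓝 0) := by
    refine ((tendsto_pow_atTop_atTop_of_one_lt (Nat.one_lt_cast.mpr hp.one_lt)).comp
      (tendsto_atTop_atTop.mpr fun b => ⟨2 * (b + d), fun k hk => ?_⟩)).const_div_atTop _
    omega
  have hgap : ∀ᶠ k in atTop, classDensity (upperClasses m d p k) ≤
      classDensity (lowerClasses m d p k) + (m : ℝ) / (p : ℝ) ^ (k / 2 - d) :=
    eventually_atTop.mpr ⟨2 * d, fun k hk => upperDensity_le_lowerDensity hp hd (by omega)⟩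
  constructor
  · refine tendsto_of_tendsto_of_tendsto_of_le_of_le' tendsto_const_nhds
      (by simpa using hlim.const_add (localDensity m d p))
      (Eventually.of_forall fun k => (localDensity_mem hp k).2) (hgap.mono fun k hk => ?_)
    linarith [(localDensity_mem (m := m) (d := d) hp k).1]
  · have h0 := hlim.const_sub (localDensity m d p)
    rw [sub_zero] at h0
    refine tendsto_of_tendsto_of_tendsto_of_le_of_le' h0 tendsto_const_nhds
      (hgap.mono fun k hk => ?_)
      (Eventually.of_forall fun k => (localDensity_mem hp k).1)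
    linarith [(localDensity_mem (m := m) (d := d) hp k).2]

/-- The signed tuples soluble at the primes of `T`. -/
def solubleAt (d : ℕ) (T : Finset ℕ) (s : Fin m → ℤˣ) (B : ℕ) : Finset (Fin m → ℕ) :=
  (box m B).filter fun w => ∀ p ∈ T, PadicSoluble p (signed s w) d

theorem mem_solubleAt {T : Finset ℕ} {s : Fin m → ℤˣ} {B : ℕ} {w : Fin m → ℕ} :
    w ∈ solubleAt d T s B ↔ w ∈ box m B ∧ ∀ p ∈ T, PadicSoluble p (signed s w) d := by
  simp [solubleAt]

/-- **Solubility at finitely many primes.** -/
theorem tendsto_padicSoluble (hd : 0 < d) {T : Finset ℕ} (hT : ∀ p ∈ T, p.Prime)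
    (s : Fin m → ℤˣ) :
    Tendsto (fun B : ℕ => ((solubleAt d T s B).card : ℝ) / (B : ℝ) ^ m) atTop
      (𝓝 (∏ p ∈ T, localDensity m d p)) := by
  rw [Metric.tendsto_atTop]
  intro ε hε
  have hu := tendsto_finsetProd T fun p hp => (tendsto_classDensity (m := m) (hT p hp) hd).1
  have hl := tendsto_finsetProd T fun p hp => (tendsto_classDensity (m := m) (hT p hp) hd).2
  obtain ⟨k, hk1, hk2⟩ := ((hu.eventually (Metric.ball_mem_nhds _ (half_pos hε))).and
    (hl.eventually (Metric.ball_mem_nhds _ (half_pos hε)))).exists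
  obtain ⟨N, hN, S, -, hSd, hS⟩ := exists_classes k T hT fun p => upperClasses m d p k
  obtain ⟨N', hN', S', -, hS'd, hS'⟩ := exists_classes k T hT fun p => lowerClasses m d p k
  have h1 := tendsto_classes S s
  have h2 := tendsto_classes S' s
  rw [hSd] at h1
  rw [hS'd] at h2
  obtain ⟨B₁, hB₁⟩ := Metric.tendsto_atTop.mp h1 (ε / 2) (half_pos hε)
  obtain ⟨B₂, hB₂⟩ := Metric.tendsto_atTop.mp h2 (ε / 2) (half_pos hε)
  refine ⟨max B₁ B₂, fun B hB => ?_⟩
  have u1 := abs_lt.mp ((Real.dist_eq _ _).symm.trans_lt (hB₁ B (le_of_max_le_left hB)))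
  have u2 := abs_lt.mp ((Real.dist_eq _ _).symm.trans_lt (hB₂ B (le_of_max_le_right hB)))
  have v1 := abs_lt.mp ((Real.dist_eq _ _).symm.trans_lt (Metric.mem_ball.mp hk1))
  have v2 := abs_lt.mp ((Real.dist_eq _ _).symm.trans_lt (Metric.mem_ball.mp hk2))
  have hup : (solubleAt d T s B).card ≤
      ((box m B).filter fun w => reduce N (signed s w) ∈ S).card :=
    Finset.card_le_card fun w hw => by
      obtain ⟨hw, h⟩ := mem_solubleAt.mp hw
      exact Finset.mem_filter.mpr ⟨hw, (hS _).mpr fun p hp => mem_upperClasses hw s (h p hp)⟩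
  have hlo : ((box m B).filter fun w => reduce N' (signed s w) ∈ S').card ≤
      (solubleAt d T s B).card :=
    Finset.card_le_card fun w hw => by
      obtain ⟨hw, h⟩ := Finset.mem_filter.mp hw
      exact mem_solubleAt.mpr
        ⟨hw, fun p hp => padicSoluble_of_mem hw s ((hS' _).mp h p hp)⟩
  have w1 := div_le_div_of_nonneg_right (c := (B : ℝ) ^ m) (Nat.cast_le (α := ℝ).mpr hup)
    (by positivity)
  have w2 := div_le_div_of_nonneg_right (c := (B : ℝ) ^ m) (Nat.cast_le (α := ℝ).mpr hlo)
    (by positivity)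
  rw [Real.dist_eq, abs_lt]
  constructor <;> linarith

end FA.DiagonalDensity
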